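import Mathlib
import Fermat.Agent.S17.H680.Cusp

/-!
# S17 / G-DIV (divisibility of `J₀(N)(ℚ̄)`), ALGEBRAIC line: definitions and frozen statements

Architect: helper797.  Route: Weil generic points + rigidity by derivations (helper797) with the
ending "transitivity instead of specialisation" (helper20).  Plan: `coord/S17-GDIV.md`
(origin/helper797).  No analysis, no torsion input, no Jacobian variety.

Notation: `k = ℚ̄`, `L ⊇ k` an algebraically closed field (in the end `L = ℂ`),
`F_L = laurentBaseChange L (modularFunctionFieldFull N) ⊆ L((q))`, `∞ = cuspL` the place `ord_q`,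
`t = j`.  A place `P` of `F_L` is RATIONAL over a subfield `K₁ ⊆ L` if every finite value at `P`
of a function with rational `q`-expansion lies in `K₁`.

This file is complete.  The pieces are the `Prop`s `Stmt…`; each owner proves
`theorem stmt… : Stmt… N L` (with the hypotheses on `L` he needs among those of `Assembly.lean`).
-/

set_option autoImplicit false

noncomputable section

open AlgebraicCurve ModularCurve

namespace Fermat.Agent.S17.GDiv

open Fermat.Agent.Lib.RR Fermat.Agent.S17.H680

/-- `ℚ̄` -/
abbrev Qb : Type := AlgebraicClosure ℚ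

section Defs

variable (N : ℕ) [NeZero N] (L : Type) [Field L] [Algebra ℚ L]

/-- The function field of `X₀(N)` over `L`. -/
abbrev FL : IntermediateField L (LaurentSeries L) :=
  laurentBaseChange L (modularFunctionFieldFull N)

/-- The base change of a function with rational `q`-expansion. -/
def bcQ (u : modularFunctionFieldFull N) : FL N L :=
  ⟨coeffEmb L (u : LaurentSeries ℚ), coeffEmb_mem_laurentBaseChange L u.2⟩

omit [NeZero N] in
@[simp]
theorem coe_bcQ (u : modularFunctionFieldFull N) :
    ((bcQ N L u : FL N L) : LaurentSeries L) = coeffEmb L (u : LaurentSeries ℚ) := rfl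

/-- `j` as an element of the rational function field. -/
def jQ : modularFunctionFieldFull N := ⟨jq, modularFunctionField_le_full N (jq_mem N)⟩

/-- `t = j ∈ F_L`. -/
def tL : FL N L := bcQ N L (jQ N)

theorem exists_order_neg :
    ∃ f : FL N L, (f : LaurentSeries L).order < 0 := by
  refine ⟨tL N L, ?_⟩
  show (coeffEmb L jq).order < 0
  have h : (coeffEmb L jq).order ≤ -1 :=
    HahnSeries.order_le_of_coeff_ne_zero (by
      rw [coeffEmb_coeff, coeff_jq_neg_one, map_one]; exact one_ne_zero)
  omega

/-- The cusp `∞`, as a place of `F_L`. -/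
def cuspL : Place L (FL N L) :=
  cuspInf (modularFunctionFieldFull N) (exists_order_neg N L)

variable {N L}

/-- `f` vanishes at `P` (`f ∈ 𝔪_P`; recall that the Prelude has `ord 0 = 0`). -/
def VanishesAt (P : Place L (FL N L)) (f : FL N L) : Prop := f = 0 ∨ 0 < P.ord f

/-- `u` has the finite value `c` at `P`. -/
def HasValue (P : Place L (FL N L)) (f : FL N L) (c : L) : Prop :=
  VanishesAt P (f - algebraMap L (FL N L) c)

/-- The place `P` is rational over the subfield `K₁`: all finite values at `P` of functions
with rational `q`-expansion lie in `K₁`. -/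
def IsRationalOver (K₁ : Subfield L) (P : Place L (FL N L)) : Prop :=
  ∀ (u : modularFunctionFieldFull N) (c : L), HasValue P (bcQ N L u) c → c ∈ K₁

/-- A divisor is rational over `K₁` if all places of its support are. -/
def DivRationalOver (K₁ : Subfield L) (D : Divisor L (FL N L)) : Prop :=
  ∀ P ∈ D.support, IsRationalOver K₁ P

/-- `K₁` is algebraically closed in `L`. -/
def AlgClosedIn (K₁ : Subfield L) : Prop := ∀ x : L, IsAlgebraic K₁ x → x ∈ K₁

/-- The `t`-value of a place (`0` if `t` has a pole at `P`). -/
def tval (P : Place L (FL N L)) : L :=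
  open Classical in if h : ∃ c : L, HasValue P (tL N L) c then h.choose else 0

/-- A tuple of places is generic and independent over `K₀`: `t` is finite at each of them and
the values are algebraically independent over `K₀`. -/
def IsGenericTuple (K₀ : Subfield L) {m : ℕ} (P : Fin m → Place L (FL N L)) : Prop :=
  (∀ i, ∃ c : L, HasValue (P i) (tL N L) c) ∧ AlgebraicIndependent K₀ (fun i => tval (P i))

/-- All coefficients of the `q`-expansion lie in `K₁`. -/
def CoeffsIn (K₁ : Subfield L) (f : FL N L) : Prop :=
  ∀ m : ℤ, (f : LaurentSeries L).coeff m ∈ K₁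

end Defs

section WithFF1

variable {N : ℕ} [NeZero N] {L : Type} [Field L] [Algebra ℚ L] [FF1 L (FL N L)]

/-- The effective divisor `P₁ + … + P_m`. -/
def sumPl {m : ℕ} (P : Fin m → Place L (FL N L)) : Divisor L (FL N L) :=
  ∑ i, prim (P i)

omit [NeZero N] in
theorem degree_sumPl {m : ℕ} (P : Fin m → Place L (FL N L)) :
    Divisor.degree (sumPl P) = m := by
  simp [sumPl, map_sum, degree_prim _ (deg_eq_one _)]

theorem degree_sumPl_sub {m : ℕ} (P : Fin m → Place L (FL N L)) :
    Divisor.degree (sumPl P - m • prim (cuspL N L)) = 0 := by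
  rw [map_sub, degree_sumPl, map_nsmul, degree_prim _ (deg_eq_one _)]
  simp

/-- The class `[P₁ + … + P_m − m ∞]`. -/
def cls {m : ℕ} (P : Fin m → Place L (FL N L)) : Pic0 L (FL N L) :=
  Pic0.mk ⟨sumPl P - m • prim (cuspL N L), degree_sumPl_sub P⟩

variable (N L)

/-- The genus of `F_L`. -/
abbrev gL : ℕ := genusR L (FL N L)

/-- The set of generic classes over `K₀`. -/
def Gen (K₀ : Subfield L) : Set (Pic0 L (FL N L)) :=
  {ξ | ∃ P : Fin (gL N L) → Place L (FL N L), IsGenericTuple K₀ P ∧ ξ = cls P}

/-! ## The frozen statements of the pieces -/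

/-- **DPRES** (the coefficientwise derivation preserves `F_L`). -/
def StmtDPRES : Prop :=
  ∀ (d : Derivation ℚ L L) (f : FL N L), ∃ h : FL N L,
    ∀ m : ℤ, (h : LaurentSeries L).coeff m = d ((f : LaurentSeries L).coeff m)

/-- **PLEXT** (a place is determined by its values on the functions with rational
`q`-expansion). -/
def StmtPLEXT : Prop :=
  ∀ P P' : Place L (FL N L),
    (∀ (u : modularFunctionFieldFull N) (c : L),
      HasValue P (bcQ N L u) c → HasValue P' (bcQ N L u) c) → P = P'

/-- **DER** (derivations respect the local rings).  For a derivation `∂` of `L` and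
`D` = coefficientwise `∂` on `F_L ⊆ L((q))`: if `g • f = D f` (`g` is the logarithmic derivative of
`f ≠ 0`), then `g` has at most simple poles, and no pole at `P` if `ord_P f = 0` or if `P` is
rational over a subfield killed by `∂`. -/
def StmtDER : Prop :=
  ∀ (d : Derivation ℚ L L) (f g : FL N L), f ≠ 0 →
    (∀ m : ℤ, ((g * f : FL N L) : LaurentSeries L).coeff m
        = d ((f : LaurentSeries L).coeff m)) →
    ∀ P : Place L (FL N L), g = 0 ∨
      (-1 ≤ P.ord g ∧
        (P.ord f = 0 → 0 ≤ P.ord g) ∧
        (∀ K₁ : Subfield L, (∀ a ∈ K₁, d a = 0) → IsRationalOver K₁ P → 0 ≤ P.ord g))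

/-- **DEREX** (enough derivations; Mathlib only).  If `K₁` is algebraically closed in `L`
(characteristic zero) and `x ∉ K₁`, some derivation of `L` kills `K₁` but not `x`. -/
def StmtDEREX : Prop :=
  ∀ K₁ : Subfield L, AlgClosedIn K₁ → ∀ x : L, x ∉ K₁ →
    ∃ d : Derivation ℚ L L, (∀ a ∈ K₁, d a = 0) ∧ d x ≠ 0

/-- **CORE** (rigidity for functions).  If all zeros and poles of `f` which are not rational over
`K₁` lie in the support of an effective divisor `E` with `ℓ(E) = 1`, then `f` is a constant
multiple of a function with coefficients in `K₁`. -/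
def StmtCORE : Prop :=
  ∀ K₁ : Subfield L, AlgClosedIn K₁ → ∀ (f : FL N L), f ≠ 0 →
    ∀ E : Divisor L (FL N L), 0 ≤ E → ell E = 1 →
      (∀ P : Place L (FL N L), ¬ IsRationalOver K₁ P → P.ord f ≠ 0 → 0 < E P) →
      ∃ c : L, c ≠ 0 ∧ CoeffsIn K₁ (c • f)

/-- **ZRAT** (zeros of functions over `K₁` are rational over `K₁`). -/
def StmtZRAT : Prop :=
  ∀ K₁ : Subfield L, AlgClosedIn K₁ → ∀ (f : FL N L), CoeffsIn K₁ f →
    ∀ P : Place L (FL N L), P.ord f ≠ 0 → IsRationalOver K₁ P

/-- **CUSPRAT** (the cusp is rational over every subfield). -/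
def StmtCUSPRAT : Prop := ∀ K₁ : Subfield L, IsRationalOver K₁ (cuspL N L)

/-- **RIG** (rigidity for classes).  If `n • y` is represented by a divisor rational over `K₁`,
then the minimal representative of `y` is rational over `K₁`. -/
def StmtRIG : Prop :=
  ∀ K₁ : Subfield L, AlgClosedIn K₁ → ∀ (y : Pic0 L (FL N L)) (n : ℕ), n ≠ 0 →
    ∀ B : Divisor.degZero (K := L) (F := FL N L), DivRationalOver K₁ (B : Divisor L (FL N L)) →
      n • y = Pic0.mk B → DivRationalOver K₁ (minRep (cuspL N L) y)

/-- **NS** (generic points are non-special).  Every countable subfield `K` is contained in a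
countable subfield `K₀`, algebraically closed in `L`, such that `ℓ(P₁ + … + P_g) = 1` for every
tuple generic over `K₀`.  (`K₀` = a field of definition of a canonical divisor.) -/
def StmtNS : Prop :=
  ∀ K : Subfield L, (K : Set L).Countable →
    ∃ K₀ : Subfield L, K ≤ K₀ ∧ AlgClosedIn K₀ ∧ (K₀ : Set L).Countable ∧
      ∀ P : Fin (gL N L) → Place L (FL N L), IsGenericTuple K₀ P → ell (sumPl P) = 1

/-- **GEN** (generic tuples exist). -/
def StmtGEN : Prop :=
  ∀ K₀ : Subfield L, (K₀ : Set L).Countable →
    ∃ P : Fin (gL N L) → Place L (FL N L), IsGenericTuple K₀ P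

/-- **GENSTAB** (the set of generic classes is stable under `n •` and under translation by
classes rational over `K₀`). -/
def StmtGENSTAB : Prop :=
  ∀ K₀ : Subfield L, AlgClosedIn K₀ →
    (∀ P : Fin (gL N L) → Place L (FL N L), IsGenericTuple K₀ P → ell (sumPl P) = 1) →
    ∀ ξ ∈ Gen N L K₀,
      (∀ n : ℕ, n ≠ 0 → n • ξ ∈ Gen N L K₀) ∧
      (∀ B : Divisor.degZero (K := L) (F := FL N L),
        DivRationalOver K₀ (B : Divisor L (FL N L)) → Pic0.mk B + ξ ∈ Gen N L K₀)

/-- **TRANS** (transitivity).  `Aut(L/K₀)` acts transitively on generic tuples. -/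
def StmtTRANS : Prop :=
  ∀ K₀ : Subfield L, AlgClosedIn K₀ → (K₀ : Set L).Countable →
    ∀ P Q : Fin (gL N L) → Place L (FL N L), IsGenericTuple K₀ P → IsGenericTuple K₀ Q →
      ∃ σ : L ≃ₐ[ℚ] L, (∀ a ∈ K₀, σ a = a) ∧
        ∀ i, arithmeticGalois (modularFunctionFieldFull N) σ • P i = Q i

end WithFF1

section BaseChange

variable (N : ℕ) [NeZero N] (L : Type) [Field L] [Algebra ℚ L] [Algebra Qb L]
  [FF1 L (FL N L)]

/-- The image of `ℚ̄` in `L`. -/
def kL : Subfield L := (algebraMap Qb L).fieldRange

/-- **BC** (base change of classes).  An injective homomorphism `J(ℚ̄) → J(L)` whose image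
consists of the classes with `ℚ̄`-rational minimal representative; every class in the image is
represented by a `ℚ̄`-rational divisor. -/
def StmtBC : Prop :=
  ∃ β : JZero N →+ Pic0 L (FL N L), Function.Injective β ∧
    (∀ x : JZero N, ∃ B : Divisor.degZero (K := L) (F := FL N L),
      DivRationalOver (kL L) (B : Divisor L (FL N L)) ∧ β x = Pic0.mk B) ∧
    (∀ y : Pic0 L (FL N L), DivRationalOver (kL L) (minRep (cuspL N L) y) → y ∈ Set.range β)

end BaseChange

end Fermat.Agent.S17.GDiv
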