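import Fermat.Agent.S17.GDiv.Assembly
import Fermat.Agent.S17.H871.ZRat
import Fermat.Agent.S17.H917.CoreRig
import Fermat.Agent.S17.H770.DerStmt
import Fermat.Agent.S17.H711.Der
import Fermat.Agent.S17.H200.Plext
import Fermat.Agent.S17.H830.NSMain
import Fermat.Agent.S17.H137.Gen
import Fermat.Agent.S17.H560.GenStab
import Fermat.Agent.S17.H20.TransStmt

/-!
# S17 / tower G-DIV: `J₀(N)(ℚ̄)` is divisible  (architect helper797)

`divisible : ∀ x : JZero N, ∃ y, n • y = x` for every `n ≠ 0`, UNCONDITIONALLY.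

Instantiation of `GDiv.divisible_of` at `L = ℂ` with one copy of every piece of route v2.1:

| piece | file | owner |
|---|---|---|
| BC, ZRAT, CUSPRAT, `ff1_FL` | `S17/H871/{BC,ZRat}.lean` | helper871 |
| DEREX, DPRES | `S17/H770/DerStmt.lean` | helper770 |
| DER (= DER-a + DER-b) | `S17/H711/Der.lean` | helper770, helper711, helper800 |
| CORE, RIG | `S17/H917/CoreRig.lean` | helper917 |
| PLEXT | `S17/H200/Plext.lean` | helper200 |
| NS | `S17/H830/NSMain.lean` | helper830 |
| GEN | `S17/H137/Gen.lean` | helper137 |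
| GENSTAB | `S17/H560/GenStab.lean` | helper560 |
| TRANS | `S17/H20/TransStmt.lean` | helper20 |
-/

set_option autoImplicit false
set_option linter.style.haveILetI false

noncomputable section

namespace Fermat.Agent.S17.GDiv

open AlgebraicCurve ModularCurve Fermat.Agent.Lib.RR

/-- The chosen embedding `ℚ̄ → ℂ`. -/
def embQbC : Qb →+* ℂ :=
  letI : Algebra ℚ (AlgebraicClosure ℚ) := AlgebraicClosure.instAlgebra ℚ
  haveI : Algebra.IsAlgebraic ℚ (AlgebraicClosure ℚ) := AlgebraicClosure.isAlgebraic ℚ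
  ((IsAlgClosed.lift : AlgebraicClosure ℚ →ₐ[ℚ] ℂ) : AlgebraicClosure ℚ →+* ℂ)

/-- The `ℚ̄`-algebra structure of `ℂ` used in the instantiation. -/
@[reducible] def algQbC : Algebra Qb ℂ := embQbC.toAlgebra

/-- `ℚ̄` is countable. -/
theorem countable_Qb : Countable Qb := by
  letI : Algebra ℚ (AlgebraicClosure ℚ) := AlgebraicClosure.instAlgebra ℚ
  haveI : Algebra.IsAlgebraic ℚ (AlgebraicClosure ℚ) := AlgebraicClosure.isAlgebraic ℚ
  have h := Algebra.IsAlgebraic.cardinalMk_le_max ℚ (AlgebraicClosure ℚ)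
  rw [Cardinal.mk_eq_aleph0 ℚ, max_self] at h
  exact Cardinal.mk_le_aleph0_iff.mp h

/-- `ℂ` is uncountable. -/
theorem uncountable_complex : Uncountable ℂ := by
  rw [← Cardinal.aleph0_lt_mk_iff, Cardinal.mk_complex]
  exact Cardinal.aleph0_lt_continuum

section Abstract

variable (L : Type) [Field L] [Algebra Qb L]

/-- The image of `ℚ̄` in `L` is countable. -/
theorem countable_kL : ((kL L : Subfield L) : Set L).Countable := by
  haveI := countable_Qb
  have : ((kL L : Subfield L) : Set L) = Set.range (algebraMap Qb L) := by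
    ext x
    simp [kL]
  rw [this]
  exact Set.countable_range _

/-- The image of `ℚ̄` in `L` is algebraically closed in `L`. -/
theorem algClosedIn_kL : AlgClosedIn (kL L) := by
  intro x hx
  have hx' : IsAlgebraic Qb x :=
    IsAlgebraic.of_ringHom_of_comp_eq (R := Qb) (S := kL L) (A := L) (B := L)
      (algebraMap Qb L).rangeRestrictField (RingHom.id L) (a := x) hx
      (algebraMap Qb L).rangeRestrictField_bijective.2 Function.injective_id
      (by ext y; rfl)
  have hint : IsIntegral Qb x := hx'.isIntegral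
  obtain ⟨z, hz⟩ := minpoly.mem_range_of_degree_eq_one Qb x
    (IsAlgClosed.degree_eq_one_of_irreducible Qb (minpoly.irreducible hint))
  exact ⟨z, hz⟩

end Abstract

/-- **G-DIV over any uncountable algebraically closed field of characteristic zero receiving
`ℚ̄`** (all pieces instantiated). -/
theorem divisible_over (N : ℕ) [NeZero N] (L : Type) [Field L] [Algebra ℚ L] [Algebra Qb L]
    [IsAlgClosed L] [Uncountable L] (n : ℕ) (hn : n ≠ 0) (x : JZero N) :
    ∃ y : JZero N, n • y = x := by
  haveI : FF1 L (FL N L) := Fermat.Agent.S17.H871.ff1_FL N L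
  have hZRAT : StmtZRAT N L := Fermat.Agent.S17.H871.stmtZRAT N L
  have hCUSP : StmtCUSPRAT N L := Fermat.Agent.S17.H871.stmtCUSPRAT N L
  have hBC : StmtBC N L := Fermat.Agent.S17.H871.stmtBC N L
  have hDER : StmtDER N L := Fermat.Agent.S17.H711.stmtDER N L
  have hDEREX : StmtDEREX L := Fermat.Agent.S17.H770.stmtDEREX L
  have hDPRES : StmtDPRES N L := Fermat.Agent.S17.H770.stmtDPRES N L
  have hCORE : StmtCORE N L := Fermat.Agent.S17.H917.stmtCORE hDER hDEREX hDPRES
  have hRIG : StmtRIG N L := Fermat.Agent.S17.H917.stmtRIG hCORE hZRAT hCUSP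
  have hPLEXT : StmtPLEXT N L := Fermat.Agent.S17.H200.stmtPLEXT
  have hNS : StmtNS N L := Fermat.Agent.S17.H830.stmtNS hPLEXT
  have hGEN : StmtGEN N L := Fermat.Agent.S17.H137.stmtGEN N L
  have hSTAB : StmtGENSTAB N L := Fermat.Agent.S17.H560.stmtGENSTAB hRIG hCUSP hZRAT
  have hTRANS : StmtTRANS N L := Fermat.Agent.S17.H20.stmtTRANS hPLEXT hZRAT
  exact divisible_of N L (countable_kL L) (algClosedIn_kL L) hBC hRIG hNS hGEN hSTAB hTRANS
    n hn x

/-- **G-DIV**: the group `J₀(N)(ℚ̄)` is divisible. -/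
theorem divisible (N : ℕ) [NeZero N] (n : ℕ) (hn : n ≠ 0) (x : JZero N) :
    ∃ y : JZero N, n • y = x := by
  letI : Algebra Qb ℂ := algQbC
  haveI : Uncountable ℂ := uncountable_complex
  exact divisible_over N ℂ n hn x

end Fermat.Agent.S17.GDiv
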