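import Mathlib
import Fermat.Agent.S17.GDiv.Defs

/-!
# S17 / G-DIV, algebraic line: the assembly (complete)

`divisible_of` : `J₀(N)(ℚ̄)` is divisible, from the frozen pieces of `Defs.lean`
(`StmtBC`, `StmtRIG`, `StmtNS`, `StmtGEN`, `StmtGENSTAB`, `StmtTRANS`) for ONE algebraically
closed field `L ⊇ ℚ̄`.

Proof (helper20's ending).  `𝒢` = generic classes over `K₀`, `ξ ∈ 𝒢`.  Then `n ξ ∈ 𝒢` and
`β x + ξ ∈ 𝒢`; by transitivity `n ξ = σ ξ`, `β x + ξ = τ ξ`, hence `ξ = n σ⁻¹ ξ` and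
`β x = n (τ σ⁻¹ ξ - σ⁻¹ ξ) =: n y`; by rigidity `y` is `ℚ̄`-rational, `y = β y₀`, and `n y₀ = x`
by injectivity of `β`.
-/

set_option autoImplicit false

noncomputable section

open AlgebraicCurve ModularCurve

namespace Fermat.Agent.S17.GDiv

open Fermat.Agent.Lib.RR Fermat.Agent.S17.H680

section

variable {N : ℕ} [NeZero N] {L : Type} [Field L] [Algebra ℚ L] [FF1 L (FL N L)]

omit [NeZero N] [FF1 L (FL N L)] in
theorem DivRationalOver.mono {K₁ K₂ : Subfield L} (h : K₁ ≤ K₂) {D : Divisor L (FL N L)}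
    (hD : DivRationalOver K₁ D) : DivRationalOver K₂ D :=
  fun P hP u c hc => h (hD P hP u c hc)

omit [FF1 L (FL N L)] in
theorem galois_smul_cuspL (σ : L ≃ₐ[ℚ] L) :
    arithmeticGalois (modularFunctionFieldFull N) σ • cuspL N L = cuspL N L :=
  arithmeticGalois_smul_cuspInf _ _ σ

omit [NeZero N] [FF1 L (FL N L)] in
theorem galois_smul_sumPl (σ : L ≃ₐ[ℚ] L) {m : ℕ} (P : Fin m → Place L (FL N L)) :
    arithmeticGalois (modularFunctionFieldFull N) σ • sumPl P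
      = sumPl (fun i => arithmeticGalois (modularFunctionFieldFull N) σ • P i) := by
  simp only [sumPl, Finset.smul_sum, smul_prim]

theorem galois_smul_cls (σ : L ≃ₐ[ℚ] L) {m : ℕ} (P : Fin m → Place L (FL N L)) :
    σ • cls P = cls (fun i => arithmeticGalois (modularFunctionFieldFull N) σ • P i) := by
  rw [galois_smul_pic0_def, cls, cls, SemilinearAut.pic0_smul_mk]
  congr 1
  apply Subtype.ext
  rw [SemilinearAut.coe_degZeroSMulHom]
  show arithmeticGalois (modularFunctionFieldFull N) σ • (sumPl P - m • prim (cuspL N L)) = _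
  rw [smul_sub, smul_comm, smul_prim, galois_smul_cuspL, galois_smul_sumPl]

/-- Transitivity on generic classes. -/
theorem exists_smul_eq_of_mem_Gen (hTRANS : StmtTRANS N L) {K₀ : Subfield L}
    (hK₀a : AlgClosedIn K₀) (hK₀c : (K₀ : Set L).Countable)
    {ξ ξ' : Pic0 L (FL N L)} (hξ : ξ ∈ Gen N L K₀) (hξ' : ξ' ∈ Gen N L K₀) :
    ∃ σ : L ≃ₐ[ℚ] L, σ • ξ = ξ' := by
  obtain ⟨P, hP, rfl⟩ := hξ
  obtain ⟨Q, hQ, rfl⟩ := hξ'
  obtain ⟨σ, -, hσ⟩ := hTRANS K₀ hK₀a hK₀c P Q hP hQ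
  refine ⟨σ, ?_⟩
  rw [galois_smul_cls]
  congr 1
  funext i
  exact hσ i

end

section Main

variable (N : ℕ) [NeZero N] (L : Type) [Field L] [Algebra ℚ L] [Algebra Qb L]
  [FF1 L (FL N L)]

/-- **G-DIV from the pieces.** -/
theorem divisible_of (hkc : (kL L : Set L).Countable) (hka : AlgClosedIn (kL L))
    (hBC : StmtBC N L) (hRIG : StmtRIG N L)
    (hNS : StmtNS N L)
    (hGEN : StmtGEN N L) (hSTAB : StmtGENSTAB N L) (hTRANS : StmtTRANS N L)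
    (n : ℕ) (hn : n ≠ 0) (x : JZero N) : ∃ y : JZero N, n • y = x := by
  obtain ⟨β, hβinj, hβrat, hβrange⟩ := hBC
  obtain ⟨K₀, hK, hK₀a, hK₀c, hns⟩ := hNS (kL L) hkc
  obtain ⟨P, hP⟩ := hGEN K₀ hK₀c
  have hξ : cls P ∈ Gen N L K₀ := ⟨P, hP, rfl⟩
  obtain ⟨h1, h2⟩ := hSTAB K₀ hK₀a hns (cls P) hξ
  obtain ⟨B, hB, hβx⟩ := hβrat x
  obtain ⟨σ, hσ⟩ := exists_smul_eq_of_mem_Gen hTRANS hK₀a hK₀c hξ (h1 n hn)
  obtain ⟨τ, hτ⟩ := exists_smul_eq_of_mem_Gen hTRANS hK₀a hK₀c hξ (h2 B (hB.mono hK))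
  have comm : ∀ (ρ : L ≃ₐ[ℚ] L) (z : Pic0 L (FL N L)), n • (ρ • z) = ρ • (n • z) :=
    fun ρ z => (map_nsmul (DistribSMul.toAddMonoidHom (Pic0 L (FL N L)) ρ) n z).symm
  have h3 : n • (σ⁻¹ • cls P) = cls P := by
    rw [comm, ← hσ, inv_smul_smul]
  have hy : n • (τ • σ⁻¹ • cls P - σ⁻¹ • cls P) = β x := by
    rw [nsmul_sub, comm τ, h3, hτ, hβx, add_sub_cancel_right]
  have hyr := hRIG (kL L) hka _ n hn B hB (by rw [hy, hβx])
  obtain ⟨y₀, hy₀⟩ := hβrange _ hyr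
  refine ⟨y₀, hβinj ?_⟩
  rw [map_nsmul, hy₀, hy]

end Main

end Fermat.Agent.S17.GDiv
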